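/-
MLT / [L1] case (C), ORDINARY case (helper9): fork of `Lib/Ihara/Glue/Rep.lean` with the condition at `p`
`IsOrdinaryAt p` (`p ∤ N`, S32) replaced by `IsOrdinaryAt p` (`p ∥ N` and `ρbar` ordinary at `p`, S33).  Generated by a
rename script from the frozen file: only the declarations depending on the condition at `p` are repeated,
with the prefix `ih`/`Ih` replaced by `kh`/`Kh`.
-/
import Mathlib
import Fermat.Agent.Lib.Ihara.Img.Rep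
import Fermat.Agent.Lib.MLT.CO.I.Img.Rep
import Fermat.Agent.Lib.Ihara.Img.Act
import Fermat.Agent.Lib.Ihara.Img.Points
import Fermat.Agent.Lib.Ihara.Glue.Rep

set_option autoImplicit false
set_option linter.unusedSectionVars false
set_option linter.unusedVariables false
set_option linter.style.haveILetI false

open IsLocalRing Polynomial Fermat.Agent.S53Lib Fermat.Agent.TW
open scoped TensorProduct

namespace Fermat.Agent.Ihara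

local notation "Qbar" => AlgebraicClosure ℚ
local notation "GQ" => (AlgebraicClosure ℚ ≃ₐ[ℚ] AlgebraicClosure ℚ)

section Rep

attribute [local instance] dualNumberAlgebra
attribute [local instance] isLocalHom_algebraMap_dualNumber

variable {p : ℕ} {𝒪 : Type} [CommRing 𝒪] [IsDomain 𝒪] [IsDiscreteValuationRing 𝒪]
  [IsAdicComplete (maximalIdeal 𝒪) 𝒪] [Finite (ResidueField 𝒪)] [CharZero 𝒪]
  {N : ℕ} [NeZero N] {S : Finset ℕ}
  {θ : CuspForm.heckeAlgebra N 2 (↑S : Set ℕ) →+* ResidueField 𝒪}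
  {M : Type*} [AddCommGroup M] [Module 𝒪 M]
  (a : CuspForm.heckeAlgebra N 2 (↑S : Set ℕ) →+* Module.End 𝒪 M)

variable [Module.IsTorsionFree 𝒪 M] [Nontrivial (ihdPart 𝒪 a θ)]

/-- **the [REP] block of `IhaHecke`, with the action of the traces of Frobenius on the module** -/
theorem khk_rep_mod (hpart : ihdPart 𝒪 a θ = ⊤)
    (hp : p.Prime) (hp2 : p ≠ 2) (hp𝒪 : (p : 𝒪) ∈ maximalIdeal 𝒪)
    (hpS : p ∈ S) (hNS : ∀ q : ℕ, q.Prime → q ∣ N → q ∈ S) (hpN : p ∣ N ∧ ¬ p ^ 2 ∣ N)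
    (ρbar : ResidualGaloisRep (ResidueField 𝒪)) (habs : ρbar.IsAbsolutelyIrreducible)
    (hord : (GaloisRepAdic.ofResidualGaloisRep ρbar).IsOrdinaryAt p)
    (hfrob : ∀ (ℓ : ℕ) (hℓ : ℓ.Prime) (hℓN : ¬ ℓ ∣ N) (hℓS : ℓ ∉ (↑S : Set ℕ)),
      ∀ P : ValuationSubring Qbar, P.LiesOverPrime ℓ → ∀ σ : GQ, P.IsFrobeniusAt σ ℓ →
        LinearMap.charpoly (ρbar.ρ σ) =
          X ^ 2 - C (θ (CuspForm.heckeAlgebra.T hℓ hℓN hℓS)) * X + C ((ℓ : ResidueField 𝒪)))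
    (b : Module.Basis (Fin 2) (ResidueField 𝒪) ρbar.V)
    (Smin : Finset ℕ) (hSmin : ∀ q ∈ Smin, q.Prime → q ≠ p → q ∣ N ∧ ¬ q ^ 2 ∣ N) :
    ∃ (rA : GQ →* Matrix (Fin 2) (Fin 2) (IhdImg 𝒪 a θ)) (hcts : MatCts (IhdImg 𝒪 a θ) rA),
      Function.Surjective (residue (IhdImg 𝒪 a θ) ∘ algebraMap 𝒪 (IhdImg 𝒪 a θ)) ∧
      IsStrictLift (𝒪 := 𝒪) (resMat ρbar b) rA ∧
      twCond 𝒪 (fun A _ _ ρ => ρ.IsOrdinaryAt p) p Smin S (ofMat rA hcts) ∧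
      IhgTraceDet (𝒪 := 𝒪) rA ∧
      (∀ (ℓ : ℕ) (hℓ : ℓ.Prime) (hℓN : ¬ ℓ ∣ N) (hℓS : ℓ ∉ (↑S : Set ℕ)),
        ∀ P : ValuationSubring Qbar, P.LiesOverPrime ℓ → ∀ σ : GQ, P.IsFrobeniusAt σ ℓ →
          ihiAct 𝒪 a θ hpart ((rA σ).trace) = a (CuspForm.heckeAlgebra.T hℓ hℓN hℓS)) ∧
      (∀ (ℓ : ℕ), ℓ.Prime → ℓ ≠ p → ∀ P : ValuationSubring Qbar, P.LiesOverPrime ℓ →
        (∀ σ : GQ, P.IsFrobeniusAt σ ℓ → (rA σ).det = (ℓ : IhdImg 𝒪 a θ)) ∧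
        (∀ σ ∈ P.inertiaSubgroupIn ℚ, (rA σ).det = 1)) := by
  obtain ⟨rA, hcts, hres, hstrict, htw, htd, htr, hdet⟩ :=
    khi_exists_rep_twCond a hp hp2 hp𝒪 hpS hNS hpN ρbar habs hord hfrob b Smin hSmin
  refine ⟨rA, hcts, hres, hstrict, htw, htd, ?_, hdet⟩
  intro ℓ hℓ hℓN hℓS P hP σ hσ
  rw [htr ℓ hℓ hℓN hℓS P hP σ hσ, ihiAct_pi]

end Rep

end Fermat.Agent.Ihara
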