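/-
MLT / [L1] case (C), ORDINARY case (helper9): fork of `Lib/Ihara/Glue/Out.lean` with the condition at `p`
`IsOrdinaryAt p` (`p ∤ N`, S32) replaced by `IsOrdinaryAt p` (`p ∥ N` and `ρbar` ordinary at `p`, S33).  Generated by a
rename script from the frozen file: only the declarations depending on the condition at `p` are repeated,
with the prefix `ih`/`Ih` replaced by `kh`/`Kh`.
-/
import Mathlib
import Fermat.Agent.Lib.Ihara.Glue.Top
import Fermat.Agent.Lib.MLT.CO.I.Glue.Rep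
import Fermat.Agent.Lib.MLT.CO.I.Img.Rep
import Fermat.Agent.Lib.Ihara.Glue.Out

set_option autoImplicit false
set_option linter.unusedSectionVars false
set_option linter.unusedVariables false
set_option linter.style.haveILetI false

open IsLocalRing Polynomial Fermat.Agent.S53Lib Fermat.Agent.TW

namespace Fermat.Agent.Ihara

open Matrix MatrixGroups CongruenceSubgroup ModularCurve ModularCurve.Period
open Fermat.Agent.DS Fermat.Agent.T1 Fermat.Agent.T1G Fermat.Agent.T2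

local notation "Qbar" => AlgebraicClosure ℚ
local notation "GQ" => (AlgebraicClosure ℚ ≃ₐ[ℚ] AlgebraicClosure ℚ)

section Out

attribute [local instance] dualNumberAlgebra
attribute [local instance] isLocalHom_algebraMap_dualNumber

variable (O : Type) [CommRing O] [IsDomain O] [IsDiscreteValuationRing O] [CharZero O]
  [IsAdicComplete (IsLocalRing.maximalIdeal O) O] [Finite (ResidueField O)]
  (M : ℕ) [NeZero M] (hM : 6 ≤ M)
  (H : Subgroup (ZMod M)ˣ) (Ps : Set ℕ) (θ₀ : ℕ → O)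
  (Δ₁ : Subgroup ((ZMod M)ˣ ⧸ H)) (χ : Δ₁ →* O)

/-- **the output of `ihk_main_chi`**: the Hecke ring `IhdImg O a θ'` of `M^χ = IhmChiPart` with its
representation `rA` and the action `ihiAct O a θ' hpart` -/
structure KhkOut {N' : ℕ} [NeZero N'] {S : Finset ℕ} (z : ℕ → (ZMod M)ˣ) (p : ℕ)
    (ρbar : ResidualGaloisRep (ResidueField O))
    (b : Module.Basis (Fin 2) (ResidueField O) ρbar.V) (Smin : Finset ℕ)
    (a : CuspForm.heckeAlgebra N' 2 (↑S : Set ℕ) →+*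
      Module.End O (IhmChiPart O M hM H Ps θ₀ Δ₁ χ))
    (θ' : CuspForm.heckeAlgebra N' 2 (↑S : Set ℕ) →+* ResidueField O)
    (hpart : ihdPart O a θ' = ⊤) [Nontrivial ↥(ihdPart O a θ')]
    (rA : GQ →* Matrix (Fin 2) (Fin 2) (IhdImg O a θ'))
    (hcts : MatCts (IhdImg O a θ') rA) : Prop where
  /-- `T_ℓ` acts as `T♭_ℓ ⟨z ℓ⟩` -/
  hecke : ∀ (l : ℕ) (hl : l.Prime) (hlN' : ¬ l ∣ N') (hlS : l ∉ (↑S : Set ℕ)),
    a (CuspForm.heckeAlgebra.T hl hlN' hlS) =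
      ihmChiOp O M hM H Ps θ₀ Δ₁ χ l *
        ihmChiDia O M hM H Ps θ₀ Δ₁ χ ((z l : (ZMod M)ˣ) : (ZMod M)ˣ ⧸ H)
  /-- the residual eigensystem -/
  theta : ∀ (l : ℕ) (hl : l.Prime) (hlN' : ¬ l ∣ N') (hlS : l ∉ (↑S : Set ℕ)),
    θ' (CuspForm.heckeAlgebra.T hl hlN' hlS) = residue O (θ₀ l)
  /-- the diamond operators commute with the Hecke ring -/
  dia_comm : ∀ (δ : (ZMod M)ˣ ⧸ H) (t : IhdImg O a θ'),
    Commute (ihmChiDia O M hM H Ps θ₀ Δ₁ χ δ) (ihiAct O a θ' hpart t)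
  /-- the commutant of the Hecke operators and the diamonds commutes with the Hecke ring -/
  map_comm : ∀ (f : Module.End O (IhmPartT O M H Ps θ₀))
    (hf : ∀ g : Δ₁, Commute f (ihmPartTDia O M hM H Ps θ₀ g)),
    (∀ ℓ, Commute f (ihmPartTOp O M hM H Ps θ₀ ℓ)) →
    (∀ δ, Commute f (ihmPartTDia O M hM H Ps θ₀ δ)) →
    ∀ t : IhdImg O a θ', Commute (ihmChiMap (ihmPartTDia O M hM H Ps θ₀) Δ₁ χ f hf)
      (ihiAct O a θ' hpart t)
  res_surj : Function.Surjective (residue (IhdImg O a θ') ∘ algebraMap O (IhdImg O a θ'))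
  strict : IsStrictLift (𝒪 := O) (resMat ρbar b) rA
  tw : twCond O (fun A _ _ ρ => ρ.IsOrdinaryAt p) p Smin S (ofMat rA hcts)
  traceDet : IhgTraceDet (𝒪 := O) rA
  /-- `ρM (tr rA (Frob_ℓ)) = T_ℓ` -/
  trace_frob : ∀ (ℓ : ℕ) (hℓ : ℓ.Prime) (hℓN : ¬ ℓ ∣ N') (hℓS : ℓ ∉ (↑S : Set ℕ)),
    ∀ P : ValuationSubring Qbar, P.LiesOverPrime ℓ → ∀ σ : GQ, P.IsFrobeniusAt σ ℓ →
      ihiAct O a θ' hpart ((rA σ).trace) = a (CuspForm.heckeAlgebra.T hℓ hℓN hℓS)
  det : ∀ (ℓ : ℕ), ℓ.Prime → ℓ ≠ p → ∀ P : ValuationSubring Qbar, P.LiesOverPrime ℓ →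
    (∀ σ : GQ, P.IsFrobeniusAt σ ℓ → (rA σ).det = (ℓ : IhdImg O a θ')) ∧
    (∀ σ ∈ P.inertiaSubgroupIn ℚ, (rA σ).det = 1)

variable {p : ℕ} (hL : IhfLevel p M H) (hpO : (p : O) ∈ IsLocalRing.maximalIdeal O)

end Out

end Fermat.Agent.Ihara
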