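/-
MLT / [L1] case (C), ORDINARY case (helper9): fork of `Lib/Ihara/Glue/Fields.lean` with the condition at `p`
`IsOrdinaryAt p` (`p ∤ N`, S32) replaced by `IsOrdinaryAt p` (`p ∥ N` and `ρbar` ordinary at `p`, S33).  Generated by a
rename script from the frozen file: only the declarations depending on the condition at `p` are repeated,
with the prefix `ih`/`Ih` replaced by `kh`/`Kh`.
-/
import Mathlib
import Fermat.Agent.Lib.Ihara.Glue.Out
import Fermat.Agent.Lib.MLT.CO.I.Glue.Out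
import Fermat.Agent.Lib.Ihara.Nf.FieldsChi
import Fermat.Agent.Lib.MLT.CO.I.Nf.FieldsChi
import Fermat.Agent.Lib.Ihara.Grp.Inst
import Fermat.Agent.Lib.Ihara.Grp.Compl
import Fermat.Agent.Lib.MLT.CO.I.E.Main
import Fermat.Agent.Lib.MLT.CO.I.Glue.Rep
import Fermat.Agent.Lib.MLT.CO.I.Img.Rep
import Fermat.Agent.Lib.Ihara.Glue.Fields

set_option autoImplicit false
set_option linter.unusedSectionVars false
set_option linter.unusedVariables false
set_option linter.style.haveILetI false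

open scoped TensorProduct
open IsLocalRing Polynomial Fermat.Agent.S53Lib Fermat.Agent.TW ExtCitation

namespace Fermat.Agent.Ihara

open Matrix MatrixGroups CongruenceSubgroup ModularCurve ModularCurve.Period
open Fermat.Agent.DS Fermat.Agent.T1 Fermat.Agent.T1G Fermat.Agent.T2

local notation "Qbar" => AlgebraicClosure ℚ
local notation "GQ" => (AlgebraicClosure ℚ ≃ₐ[ℚ] AlgebraicClosure ℚ)

section Group

variable (p : ℕ) (M : ℕ) [NeZero M] {r : ℕ} {Tc : Finset Nat.Primes} {qv : Fin r → ℕ}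
  (h : IhqData M (ihqPrimes Tc qv) (ihqOrders Tc qv p))

end Group

section Fields

variable (O : Type) [CommRing O] [IsDomain O] [IsDiscreteValuationRing O] [CharZero O]
  [IsAdicComplete (IsLocalRing.maximalIdeal O) O] [Finite (ResidueField O)]
  (p : ℕ) [Fact p.Prime] (M : ℕ) [NeZero M] (hM : 6 ≤ M)
  {r : ℕ} {Tc : Finset Nat.Primes} {qv : Fin r → ℕ}
  (h : IhqData M (ihqPrimes Tc qv) (ihqOrders Tc qv p))
  (Ps : Set ℕ) (θ : ℕ → O) (χ : ↥(ihqD1 h) →* O)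
  [Module.IsTorsionFree O (IhmChiPart O M hM (ihqKappa h).ker Ps θ (ihqD1 h) χ)]
  {N' : ℕ} [NeZero N'] {S : Finset ℕ}
  (ρbar : ResidualGaloisRep (ResidueField O))
  (b : Module.Basis (Fin 2) (ResidueField O) ρbar.V) (Smin : Finset ℕ)
  (a : CuspForm.heckeAlgebra N' 2 (↑S : Set ℕ) →+*
    Module.End O (IhmChiPart O M hM (ihqKappa h).ker Ps θ (ihqD1 h) χ))
  (θ' : CuspForm.heckeAlgebra N' 2 (↑S : Set ℕ) →+* ResidueField O)
  (hpart : ihdPart O a θ' = ⊤) [Nontrivial ↥(ihdPart O a θ')]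
  (rA : GQ →* Matrix (Fin 2) (Fin 2) (IhdImg O a θ'))
  (hcts : MatCts (IhdImg O a θ') rA)
  (out : KhkOut O M hM (ihqKappa h).ker Ps θ (ihqD1 h) χ (ihtcZ M (ihqRl Tc qv) (ihqK Tc qv p)) p
    ρbar b Smin a θ' hpart rA hcts)
  (hN' : N' = M * (ihqRl Tc qv).prod) (hpS : p ∈ S)
  (hS : ∀ l : ℕ, l.Prime → l ∣ N' → l ∈ S)

include out in
/-- an output `KhkOut` is a datum `KheDatum` (lead's `E/Main.lean`) -/
theorem khk_datum_of_out :
    KheDatum O M hM (ihqKappa h).ker Ps θ p (ihqD1 h) χ S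
      (ihtcZ M (ihqRl Tc qv) (ihqK Tc qv p)) ρbar b Smin a θ' hpart rA hcts :=
  ⟨out.hecke, out.theta, out.dia_comm, out.map_comm, out.res_surj, out.strict, out.tw,
    out.traceDet, out.trace_frob, out.det⟩

include out hN' hpS hS in
/-- **the fields [TC]1,2 of `IhaHecke` at `v ∈ Tc`** (`χ` non-trivial on the generator `γ_v` of the
`v`-component of `Δ₁`) -/
theorem khk_fields_TC (hp2 : p ≠ 2) (hpO : (p : O) ∈ IsLocalRing.maximalIdeal O)
    (hMsq : Squarefree M) (v : ↥Tc) (hvp : ((v : Nat.Primes) : ℕ) ≠ p)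
    (hunr : ρbar.IsUnramifiedAt ((v : Nat.Primes) : ℕ)) {φ σ : GQ}
    (hφ : (primeLocalPlace v).IsFrobeniusAt φ ((v : Nat.Primes) : ℕ))
    (hσ : IhgGen p (primeLocalPlace v) σ)
    (a₁ u : ℕ) (hvau : ((v : Nat.Primes) : ℕ) = 1 + p ^ a₁ * u) (hu : ¬ p ∣ u) (ha : 0 < a₁)
    (μ : Finset Oˣ)
    (hμ : (X ^ (p ^ a₁) - 1 : O[X]) = (X - 1) * ∏ ζ ∈ μ, (X - C (ζ : O)))
    (hχv : χ ((ihqD1Equiv h).symm (ihqGen _ v)) ≠ 1) :
    ∏ ζ ∈ μ, ((rA σ).trace - algebraMap O (IhdImg O a θ') ((ζ : O) + ((ζ⁻¹ : Oˣ) : O))) = 0 ∧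
      rA φ * rA σ = rA σ * rA φ := by
  have hp : p.Prime := Fact.out
  have hD := khk_datum_of_out O p M hM h Ps θ χ ρbar b Smin a θ' hpart rA hcts out
  have hyp : IhtcHyp M (ihqKappa h).ker (ihqRl Tc qv) (ihqK Tc qv p) :=
    ihq_tcHyp_sum Tc qv hMsq hp hp2 h
  have hγ : ∃ u : (ZMod ((v : Nat.Primes) : ℕ))ˣ, ∃ δ₁ : ↥(ihqD1 h),
      QuotientGroup.mk' (ihqKappa h).ker (ihtcY M (ihqK Tc qv p) ((v : Nat.Primes) : ℕ) u) = δ₁ ∧
        χ δ₁ ≠ 1 := by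
    obtain ⟨u', hu'⟩ := ihq_exists_Y_gen_sum Tc qv hMsq hp hp2 h (Sum.inl v)
    exact ⟨u', (ihqD1Equiv h).symm (ihqGen _ v), (ihqD1Equiv_symm_gen h v _ hu').symm, hχv⟩
  exact khn_chi_TC O M hM (ihqKappa h).ker Ps θ p (ihqD1 h) χ S ρbar b Smin a θ' hpart rA hcts hD
    hpS hS hp2 hpO hyp hN' (ihkIota p M h) (ihk_iota_compl p M h) (ihk_delta_pow p)
    (v : Nat.Primes).2 (ihq_mem_Rl_inl Tc qv v) hvp hunr (primeLocalPlace v)
    (tw_primeLocalPlace_liesOver (v : Nat.Primes)) hφ hσ a₁ u hvau hu ha μ hμ hγ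

include out hN' hpS hS in
/-- **the fields [AQ] and [WL] of `IhaHecke` at the Taylor–Wiles prime `qv i`**, with the whole
`ihta_AQ` package of the inertia scalar `aq` (for the consumer [SC]) -/
theorem khk_fields_AQ_WL (hp2 : p ≠ 2) (hpO : (p : O) ∈ IsLocalRing.maximalIdeal O)
    (hMsq : Squarefree M) (i : Fin r) (hqp : qv i ≠ p)
    (hunr : ρbar.IsUnramifiedAt (qv i)) (hTW : IsTWPrime ρbar (qv i))
    (Pl : ValuationSubring Qbar) (hPl : Pl.LiesOverPrime (qv i)) {φ σ : GQ}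
    (hφ : Pl.IsFrobeniusAt φ (qv i)) (hσ : IhgGen p Pl σ)
    (c u : ℕ) (hqcu : qv i = 1 + p ^ c * u) (hu : ¬ p ∣ u) (hc0 : 0 < c) :
    ∃ (aq aq' : IhdImg O a θ') (e : Matrix (Fin 2) (Fin 2) (IhdImg O a θ')),
      (aq * aq' = 1 ∧ aq ^ (p ^ c) = 1 ∧ aq - 1 ∈ maximalIdeal (IhdImg O a θ') ∧
        e * e = e ∧ e.trace = 1 ∧ rA φ * e = e * rA φ ∧ aq = (e * rA σ).trace ∧
        rA σ = aq • e + aq' • (1 - e) ∧ (rA σ).trace = aq + aq' ∧ rA φ * rA σ = rA σ * rA φ) ∧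
      ∀ v : IhmChiPart O M hM (ihqKappa h).ker Ps θ (ihqD1 h) χ,
        (∑ j ∈ Finset.range p,
          ihmChiDia O M hM (ihqKappa h).ker Ps θ (ihqD1 h) χ
            (((ihqD2Equiv h).symm (ihqGen _ i) : ↥(ihqD2 h)) :
              (ZMod M)ˣ ⧸ (ihqKappa h).ker) ^ j :
            Module.End O (IhmChiPart O M hM (ihqKappa h).ker Ps θ (ihqD1 h) χ)) v = 0 →
        ihiAct O a θ' hpart aq v = v → v = 0 := by
  have hp : p.Prime := Fact.out
  have hD := khk_datum_of_out O p M hM h Ps θ χ ρbar b Smin a θ' hpart rA hcts out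
  have hyp : IhtcHyp M (ihqKappa h).ker (ihqRl Tc qv) (ihqK Tc qv p) :=
    ihq_tcHyp_sum Tc qv hMsq hp hp2 h
  have hγ : ∃ u : (ZMod (qv i))ˣ,
      QuotientGroup.mk' (ihqKappa h).ker (ihtcY M (ihqK Tc qv p) (qv i) u)
        = ihkIota p M h (ihqGen _ i) := by
    obtain ⟨u', hu'⟩ := ihq_exists_Y_gen_sum Tc qv hMsq hp hp2 h (Sum.inr i)
    exact ⟨u', (ihqD2Equiv_symm_gen h i _ hu').symm⟩
  exact khn_chi_AQ_WL O M hM (ihqKappa h).ker Ps θ p (ihqD1 h) χ S ρbar b Smin a θ' hpart rA hcts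
    hD hpS hS hpO hyp hN' (ihkIota p M h) (ihk_iota_compl p M h) (ihk_delta_pow p)
    (h.prime (Sum.inr i)) (ihq_mem_Rl_inr Tc qv i) hqp hunr hTW Pl hPl hφ hσ c u hqcu hu hc0
    (ihqGen _ i) hγ

end Fields

end Fermat.Agent.Ihara
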