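/-
MLT / [L1] case (C), ORDINARY case (helper9): fork of `Lib/Ihara/Glue/Hecke.lean` with the condition at `p`
`IsOrdinaryAt p` (`p ∤ N`, S32) replaced by `IsOrdinaryAt p` (`p ∥ N` and `ρbar` ordinary at `p`, S33).  Generated by a
rename script from the frozen file: only the declarations depending on the condition at `p` are repeated,
with the prefix `ih`/`Ih` replaced by `kh`/`Kh`.
-/
import Mathlib
import Fermat.Agent.Lib.Ihara.Glue.Out
import Fermat.Agent.Lib.MLT.CO.I.Glue.Out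
import Fermat.Agent.Lib.Ihara.Asm.Level
import Fermat.Agent.Lib.Ihara.Grp.Compl
import Fermat.Agent.Lib.Ihara.Grp.Level
import Fermat.Agent.Lib.Ihara.Grp.Tw
import Fermat.Agent.Lib.Ihara.Hm.Lvl
import Fermat.Agent.Lib.Ihara.Tw.ChainHecke
import Fermat.Agent.Lib.MLT.CO.I.Glue.Rep
import Fermat.Agent.Lib.MLT.CO.I.Img.Rep
import Fermat.Agent.Lib.Ihara.Glue.Hecke

set_option autoImplicit false
set_option linter.unusedSectionVars false
set_option linter.unusedVariables false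
set_option linter.style.haveILetI false

open IsLocalRing Polynomial Fermat.Agent.S53Lib Fermat.Agent.TW ExtCitation

namespace Fermat.Agent.Ihara

open Matrix MatrixGroups CongruenceSubgroup ModularCurve ModularCurve.Period
open Fermat.Agent.DS Fermat.Agent.T1 Fermat.Agent.T1G Fermat.Agent.T2

local notation "Qbar" => AlgebraicClosure ℚ
local notation "GQ" => (AlgebraicClosure ℚ ≃ₐ[ℚ] AlgebraicClosure ℚ)

section Core

variable (O : Type) [CommRing O] [IsDomain O] [IsDiscreteValuationRing O] [CharZero O]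
  [IsAdicComplete (IsLocalRing.maximalIdeal O) O] [Finite (ResidueField O)]
  (M : ℕ) [NeZero M] (hM : 6 ≤ M)
  (H : Subgroup (ZMod M)ˣ) (Ps : Set ℕ) (θ₀ : ℕ → O)
  (Δ₁ : Subgroup ((ZMod M)ˣ ⧸ H)) (χ : Δ₁ →* O)

/-- **the tuple `IhaHecke` from an output `KhkOut` of `ihk_main_chi'`** (group data abstract) -/
theorem khk_hecke_of_out (p : ℕ) [Fact p.Prime] {N' : ℕ} [NeZero N'] {S : Finset ℕ}
    (z : ℕ → (ZMod M)ˣ) (ρbar : ResidualGaloisRep (ResidueField O))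
    (b : Module.Basis (Fin 2) (ResidueField O) ρbar.V) (Smin : Finset ℕ)
    (Tc : Finset Nat.Primes) (φv σv : Nat.Primes → GQ) (ϖ : O)
    (μ : ↥Tc → Finset Oˣ) (cs : ↥Tc → Oˣ) (q₀ : ↥Tc) (r d : ℕ) (qv : Fin r → ℕ) (n : ℕ)
    (hSeq : S = Smin ∪ ihgNat Tc ∪ Finset.univ.image qv)
    (a : CuspForm.heckeAlgebra N' 2 (↑S : Set ℕ) →+*
      Module.End O (IhmChiPart O M hM H Ps θ₀ Δ₁ χ))
    (θ' : CuspForm.heckeAlgebra N' 2 (↑S : Set ℕ) →+* ResidueField O)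
    (hpart : ihdPart O a θ' = ⊤) [Nontrivial ↥(ihdPart O a θ')]
    (rA : GQ →* Matrix (Fin 2) (Fin 2) (IhdImg O a θ'))
    (hcts : MatCts (IhdImg O a θ') rA)
    (out : KhkOut O M hM H Ps θ₀ Δ₁ χ z p ρbar b Smin a θ' hpart rA hcts)
    -- the places at `Tc`
    (hTcp : ∀ v : ↥Tc, ((v : Nat.Primes) : ℕ) ≠ p)
    (hφv : ∀ v ∈ Tc, (primeLocalPlace v).IsFrobeniusAt (φv v) (v : ℕ))
    (hσv : ∀ v ∈ Tc, σv v ∈ (primeLocalPlace v).inertiaSubgroupIn ℚ)
    -- the group `Δ₂ ≃* G`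
    (Δ₂ : Subgroup ((ZMod M)ˣ ⧸ H))
    (G : Type) [CommGroup G] [Finite G] (E : ↥Δ₂ ≃* G) (γ : Fin r → G) (c : Fin r → ℕ)
    (hγ : ∀ i, n ≤ c i ∧ 0 < c i ∧ orderOf (γ i) = p ^ c i)
    (hgen : Subgroup.closure (Set.range γ) = ⊤)
    (huniv : ∀ (Y : Type) [CommMonoid Y] (y : Fin r → Y), (∀ i, y i ^ (p ^ c i) = 1) →
      ∃ f : G →* Y, ∀ i, f (γ i) = y i)
    -- freeness over `O[Δ₂]`
    (w : Fin d → IhmChiPart O M hM H Ps θ₀ Δ₁ χ)
    (b' : Module.Basis (Fin d × Δ₂) O (IhmChiPart O M hM H Ps θ₀ Δ₁ χ))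
    (hb' : ∀ (j : Fin d) (g : Δ₂), b' (j, g)
      = ihmChiDia O M hM H Ps θ₀ Δ₁ χ (g : (ZMod M)ˣ ⧸ H) (w j))
    -- [TC] 1, 2
    (hTC : ∀ v : ↥Tc, ∏ ζ ∈ μ v, ((rA (σv v)).trace -
        algebraMap O (IhdImg O a θ') ((ζ : O) + ((ζ⁻¹ : Oˣ) : O))) = 0 ∧
      rA (φv v) * rA (σv v) = rA (σv v) * rA (φv v))
    -- [AQ] + [SC] + [WL]
    (hAQ : ∀ i : Fin r, ∃ aq : IhdImg O a θ', aq ^ (p ^ c i) = 1 ∧
      (∀ v, ∃ u, ihiAct O a θ' hpart aq v - v
        = ihmChiDia O M hM H Ps θ₀ Δ₁ χ ((E.symm (γ i) : Δ₂) : (ZMod M)ˣ ⧸ H) u - u) ∧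
      (∀ v, (∑ k ∈ Finset.range p,
          ihmChiDia O M hM H Ps θ₀ Δ₁ χ ((E.symm (γ i) : Δ₂) : (ZMod M)ˣ ⧸ H) ^ k :
            Module.End O (IhmChiPart O M hM H Ps θ₀ Δ₁ χ)) v = 0 →
        ihiAct O a θ' hpart aq v = v → v = 0))
    -- [E′]
    (hE : ∀ v, ∃ v', ihiAct O a θ' hpart ((rA (φv q₀)).trace -
      algebraMap O (IhdImg O a θ') ((cs q₀ : O) * (1 + (((q₀ : Nat.Primes) : ℕ) : O)))) v
        = ϖ • v') :
    IhaHecke p ρbar b (fun _ _ _ ρ => ρ.IsOrdinaryAt p) Smin Tc φv σv ϖ μ cs q₀ r d qv n := by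
  classical
  subst hSeq
  choose aq haq1 haq2 haq3 using hAQ
  -- the diamond action of `G`
  set x : G →* Module.End O (IhmChiPart O M hM H Ps θ₀ Δ₁ χ) :=
    (ihmChiDia O M hM H Ps θ₀ Δ₁ χ).comp (Δ₂.subtype.comp E.symm.toMonoidHom) with hx
  have hxg : ∀ g : G, x g
      = ihmChiDia O M hM H Ps θ₀ Δ₁ χ ((E.symm g : Δ₂) : (ZMod M)ˣ ⧸ H) := fun g => rfl
  refine ⟨IhdImg O a θ', inferInstance, inferInstance, inferInstance, inferInstance, inferInstance,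
    inferInstance, rA, hcts, IhmChiPart O M hM H Ps θ₀ Δ₁ χ, inferInstance, inferInstance,
    inferInstance, ihiAct O a θ' hpart, G, inferInstance, inferInstance, x, w,
    b'.reindex (Equiv.prodCongr (Equiv.refl (Fin d)) E.toEquiv), γ, c, aq,
    out.res_surj, out.strict, ?_, out.traceDet, fun v => (hTC v).1, fun v => (hTC v).2, ?_, ?_,
    ?_, ?_, hγ, hgen, huniv, haq1, ?_, ?_, hE⟩
  · -- the type
    exact out.tw
  · -- det at the inertia generators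
    intro v
    exact ((out.det _ (v : Nat.Primes).2 (hTcp v) (primeLocalPlace v)
      (tw_primeLocalPlace_liesOver v)).2) _ (hσv v v.2)
  · -- det at the Frobenius lifts
    intro v
    exact ((out.det _ (v : Nat.Primes).2 (hTcp v) (primeLocalPlace v)
      (tw_primeLocalPlace_liesOver v)).1) _ (hφv v v.2)
  · -- commutation
    intro t g
    rw [hxg]
    exact (out.dia_comm _ t).symm
  · -- the basis
    intro j g
    rw [Module.Basis.reindex_apply, hxg]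
    exact hb' j _
  · intro i v
    rw [hxg]
    exact haq2 i v
  · intro i v
    rw [hxg]
    exact haq3 i v

end Core

section Concrete

variable (O : Type) [CommRing O] [IsDomain O] [IsDiscreteValuationRing O] [CharZero O]
  [IsAdicComplete (IsLocalRing.maximalIdeal O) O] [Finite (ResidueField O)]
  (p : ℕ) [Fact p.Prime] (M : ℕ) [NeZero M] (hM : 6 ≤ M)
  {r : ℕ} {Tc : Finset Nat.Primes} {qv : Fin r → ℕ}
  (h : IhqData M (ihqPrimes Tc qv) (ihqOrders Tc qv p))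
  (Ps : Set ℕ) (θ : ℕ → O) (χ : ↥(ihqD1 h) →* O)

end Concrete

end Fermat.Agent.Ihara
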